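/-
S36, block T4 "norm maps" (sub-architect helper96).  Mathlib only.
Norm and degree along a ring homomorphism of fields (no `Algebra` instances, so that several
embeddings between the same two fields can be used at the same time):
transitivity, base change, product over a full set of embeddings.
-/
import Mathlib

set_option autoImplicit false

noncomputable section

namespace Fermat.Agent.S36.Norm

variable {K L M K' L' Ω : Type*} [Field K] [Field L] [Field M] [Field K'] [Field L'] [Field Ω]

/-- The norm `L → K` along `f : K → L`. -/
def nm (f : K →+* L) : L →* K :=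
  letI := f.toAlgebra
  Algebra.norm K

/-- The degree `[L : f K]` (zero if infinite). -/
def dg (f : K →+* L) : ℕ :=
  letI := f.toAlgebra
  Module.finrank K L

/-! ### TASK S36-N1 -/

theorem dg_comp (f : K →+* L) (g : L →+* M) : dg (g.comp f) = dg f * dg g := by
  letI := f.toAlgebra
  letI := g.toAlgebra
  letI := (g.comp f).toAlgebra
  haveI : IsScalarTower K L M := IsScalarTower.of_algebraMap_eq (fun _ => rfl)
  exact (Module.finrank_mul_finrank K L M).symm

theorem nm_comp (f : K →+* L) (g : L →+* M) (z : M) : nm (g.comp f) z = nm f (nm g z) := by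
  letI := f.toAlgebra
  letI := g.toAlgebra
  letI := (g.comp f).toAlgebra
  haveI : IsScalarTower K L M := IsScalarTower.of_algebraMap_eq (fun _ => rfl)
  exact (Algebra.norm_norm (R := K) (S := L) (a := z)).symm

theorem dg_of_surjective (f : K →+* L) (hf : Function.Surjective f) : dg f = 1 := by
  letI := f.toAlgebra
  show Module.finrank K L = 1
  refine finrank_eq_one (1 : L) one_ne_zero (fun w => ?_)
  obtain ⟨c, rfl⟩ := hf w
  exact ⟨c, by rw [Algebra.smul_def, mul_one]; rfl⟩

theorem nm_of_surjective (f : K →+* L) (hf : Function.Surjective f) (x : K) : nm f (f x) = x := by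
  have h1 := dg_of_surjective f hf
  letI := f.toAlgebra
  have h2 : Module.finrank K L = 1 := h1
  have h3 : Algebra.norm K (algebraMap K L x) = x ^ Module.finrank K L :=
    Algebra.norm_algebraMap x
  rw [h2, pow_one] at h3
  exact h3

/-- the number of embeddings over `K` is at most the degree -/
theorem card_le_dg (f : K →+* L) (hf : dg f ≠ 0) (g : K →+* Ω) {ι : Type*} [Fintype ι]
    (τ : ι → L →+* Ω) (hτ : ∀ i, (τ i).comp f = g) (hinj : Function.Injective τ) :
    Fintype.card ι ≤ dg f := by
  letI := f.toAlgebra
  letI := g.toAlgebra
  have hf' : Module.finrank K L ≠ 0 := hf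
  haveI : FiniteDimensional K L := Module.finite_of_finrank_pos (Nat.pos_of_ne_zero hf')
  let e : ι → (L →ₐ[K] Ω) := fun i =>
    { τ i with commutes' := fun r => RingHom.congr_fun (hτ i) r }
  have he : Function.Injective e := by
    intro i j h
    apply hinj
    ext z
    exact congrArg (fun φ : L →ₐ[K] Ω => φ z) h
  have h1 : Nat.card ι ≤ Nat.card (L →ₐ[K] Ω) := Nat.card_le_card_of_injective e he
  rw [Nat.card_eq_fintype_card] at h1
  exact h1.trans (card_algHom_le_finrank K L Ω)

end Fermat.Agent.S36.Norm

end
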