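/-
S36, block T4 "norm maps" (sub-architect helper96).  Mathlib only.  TASK S36-N2: base change of norms.
-/
import Fermat.Agent.S36.Norm.Along

set_option autoImplicit false

noncomputable section

namespace Fermat.Agent.S36.Norm

variable {K L M K' L' Ω : Type*} [Field K] [Field L] [Field M] [Field K'] [Field L'] [Field Ω]

/-! ### TASK S36-N2 -/

/-- **Base change of norms.**  In a commutative square of fields with equal (finite) degrees such
that `L'` is generated by `K'` and the image of `L`, the norm commutes with the vertical maps. -/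
theorem nm_baseChange (f : K →+* L) (f' : K' →+* L') (φ : K →+* K') (ψ : L →+* L')
    (hsq : ψ.comp f = f'.comp φ) (hpos : dg f ≠ 0) (hdeg : dg f' = dg f)
    (hgen : Subfield.closure (Set.range f' ∪ Set.range ψ) = ⊤) (y : L) :
    nm f' (ψ y) = φ (nm f y) := by
  classical
  let _ := f.toAlgebra
  let _ := f'.toAlgebra
  have hpos' : 0 < Module.finrank K L := Nat.pos_of_ne_zero hpos
  have hdeg' : Module.finrank K' L' = Module.finrank K L := hdeg
  have hfin : Module.Finite K L := Module.finite_of_finrank_pos hpos'
  have hfin' : Module.Finite K' L' := Module.finite_of_finrank_pos (by rw [hdeg']; exact hpos')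
  let b := Module.finBasis K L
  have hsmul : ∀ (c : K) (z : L), ψ (c • z) = φ c • ψ z := by
    intro c z
    rw [Algebra.smul_def, Algebra.smul_def, map_mul]
    congr 1
    exact RingHom.congr_fun hsq c
  have hexp : ∀ z : L, ψ z = ∑ i, φ (b.repr z i) • ψ (b i) := by
    intro z
    conv_lhs => rw [← b.sum_repr z]
    rw [map_sum]
    exact Finset.sum_congr rfl fun i _ => hsmul _ _
  have hadj : ∀ z : L', z ∈ Algebra.adjoin K' (Set.range ψ) := by
    intro z
    rw [← IntermediateField.adjoin_toSubalgebra_of_isAlgebraic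
      (fun x _ => Algebra.IsAlgebraic.isAlgebraic x)]
    show z ∈ Subfield.closure (Set.range f' ∪ Set.range ψ)
    rw [hgen]
    trivial
  have hspan : ⊤ ≤ Submodule.span K' (Set.range (ψ ∘ b)) := by
    intro z _
    have h1 : z ∈ Subalgebra.toSubmodule (Algebra.adjoin K' (Set.range ψ)) := hadj z
    rw [Algebra.adjoin_eq_span] at h1
    have h2 : (Submonoid.closure (Set.range ψ) : Set L') = Set.range ψ := by
      have : Set.range ψ = ((MonoidHom.mrange (ψ : L →* L') : Submonoid L') : Set L') := by
        ext x
        simp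
      rw [this, Submonoid.closure_eq]
    rw [h2] at h1
    refine Submodule.span_le.2 ?_ h1
    rintro _ ⟨w, rfl⟩
    rw [SetLike.mem_coe, hexp w]
    exact Submodule.sum_mem _ fun i _ =>
      Submodule.smul_mem _ _ (Submodule.subset_span ⟨i, rfl⟩)
  let b' := basisOfTopLeSpanOfCardEqFinrank (ψ ∘ b) hspan (by
    rw [Fintype.card_fin, hdeg'])
  have hb' : ∀ i, b' i = ψ (b i) := fun i => by
    show basisOfTopLeSpanOfCardEqFinrank (ψ ∘ b) hspan _ i = ψ (b i)
    rw [coe_basisOfTopLeSpanOfCardEqFinrank]
    rfl
  have hrepr : ∀ (z : L) (i), b'.repr (ψ z) i = φ (b.repr z i) := by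
    intro z i
    have h1 : ψ z = ∑ k, φ (b.repr z k) • b' k := by
      rw [hexp z]
      exact Finset.sum_congr rfl fun k _ => by rw [hb']
    rw [h1, b'.repr_sum_self]
  have hmat : Algebra.leftMulMatrix b' (ψ y) = (Algebra.leftMulMatrix b y).map φ := by
    ext i j
    rw [Matrix.map_apply, Algebra.leftMulMatrix_eq_repr_mul, Algebra.leftMulMatrix_eq_repr_mul,
      hb', ← map_mul, hrepr]
  show Algebra.norm K' (ψ y) = φ (Algebra.norm K y)
  rw [Algebra.norm_eq_matrix_det b', Algebra.norm_eq_matrix_det b, hmat, RingHom.map_det,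
    RingHom.mapMatrix_apply]

end Fermat.Agent.S36.Norm

end
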