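/-
S36, block T4 "norm maps" (sub-architect helper96).
The two families of maps between the function fields `FN M = ℚ̄(X₀(M))`:
* `inc h : FN M → FN M'`      (`M ∣ M'`)       the inclusion `f(τ) ↦ f(τ)`
* `vv ℓ h : FN M → FN M'`     (`M * ℓ ∣ M'`)   `f(τ) ↦ f(ℓ τ)`, i.e. `q ↦ q ^ ℓ`
(no casts between `FN (N * q * ℓ)` and `FN (N * ℓ * q)` are needed with these).
-/
import Fermat.Agent.GAL.E.Embed

set_option autoImplicit false

noncomputable section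

namespace Fermat.Agent.S36.Norm

open ModularCurve AlgebraicCurve Fermat.Agent.S24 Fermat.Agent.S24.B Fermat.Agent.GAL.E

theorem FN_mono {M M' : ℕ} [NeZero M] [NeZero M'] (h : M ∣ M') :
    modularFunctionFieldBar M ≤ modularFunctionFieldBar M' := by
  show laurentBaseChange Kbar (modularFunctionFieldFull M) ≤
    laurentBaseChange Kbar (modularFunctionFieldFull M')
  rw [laurentBaseChange, IntermediateField.adjoin_le_iff]
  rintro _ ⟨y, hy, rfl⟩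
  exact coeffEmb_mem_laurentBaseChange Kbar (full_degeneracy_le h hy)

/-- The inclusion `FN M → FN M'` for `M ∣ M'`. -/
def inc {M M' : ℕ} [NeZero M] [NeZero M'] (h : M ∣ M') : FN M →ₐ[Kbar] FN M' :=
  IntermediateField.inclusion (FN_mono h)

@[simp] theorem coe_inc {M M' : ℕ} [NeZero M] [NeZero M'] (h : M ∣ M') (x : FN M) :
    (inc h x : LaurentSeries Kbar) = (x : LaurentSeries Kbar) :=
  IntermediateField.coe_inclusion _ x

theorem qExpand_mem {M M' : ℕ} (ℓ : ℕ) [NeZero M] [NeZero M'] [NeZero ℓ] (h : M * ℓ ∣ M')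
    (x : FN M) : qExpand Kbar ℓ (x : LaurentSeries Kbar) ∈ modularFunctionFieldBar M' :=
  FN_mono h (heckeBetaBar Kbar M ℓ x).2

/-- The map `f(τ) ↦ f(ℓ τ)`, `FN M → FN M'` for `M * ℓ ∣ M'`. -/
def vv {M M' : ℕ} (ℓ : ℕ) [NeZero M] [NeZero M'] [NeZero ℓ] (h : M * ℓ ∣ M') :
    FN M →ₐ[Kbar] FN M' :=
  (inc h).comp (heckeBetaBar Kbar M ℓ)

@[simp] theorem coe_vv {M M' : ℕ} (ℓ : ℕ) [NeZero M] [NeZero M'] [NeZero ℓ] (h : M * ℓ ∣ M')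
    (x : FN M) : (vv ℓ h x : LaurentSeries Kbar) = qExpand Kbar ℓ (x : LaurentSeries Kbar) := by
  rw [vv, AlgHom.comp_apply, coe_inc, coe_heckeBetaBar]

theorem heckeAlphaBar_eq_inc (N ℓ : ℕ) [NeZero N] [NeZero ℓ] :
    heckeAlphaBar Kbar N ℓ = inc (dvd_mul_right N ℓ) :=
  heckeAlphaBar_eq_inclusion N ℓ _

theorem heckeBetaBar_eq_vv (N ℓ : ℕ) [NeZero N] [NeZero ℓ] :
    heckeBetaBar Kbar N ℓ = vv ℓ (dvd_refl (N * ℓ)) :=
  AlgHom.ext fun x => Subtype.ext (by rw [coe_vv, coe_heckeBetaBar])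

section Comp

variable {M₁ M₂ M₃ : ℕ} [NeZero M₁] [NeZero M₂] [NeZero M₃]

theorem inc_inc (h : M₁ ∣ M₂) (h' : M₂ ∣ M₃) (x : FN M₁) :
    inc h' (inc h x) = inc (h.trans h') x :=
  Subtype.ext (by rw [coe_inc, coe_inc, coe_inc])

theorem inc_vv (ℓ : ℕ) [NeZero ℓ] (h : M₁ * ℓ ∣ M₂) (h' : M₂ ∣ M₃) (x : FN M₁) :
    inc h' (vv ℓ h x) = vv ℓ (h.trans h') x :=
  Subtype.ext (by rw [coe_inc, coe_vv, coe_vv])

theorem vv_inc (ℓ : ℕ) [NeZero ℓ] (h : M₁ ∣ M₂) (h' : M₂ * ℓ ∣ M₃) (x : FN M₁) :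
    vv ℓ h' (inc h x) = vv ℓ ((mul_dvd_mul_right h ℓ).trans h') x :=
  Subtype.ext (by rw [coe_vv, coe_inc, coe_vv])

theorem vv_vv_comm (ℓ ℓ' : ℕ) [NeZero ℓ] [NeZero ℓ'] {M₂' : ℕ} [NeZero M₂'] (h : M₁ * ℓ ∣ M₂)
    (h' : M₂ * ℓ' ∣ M₃) (k : M₁ * ℓ' ∣ M₂') (k' : M₂' * ℓ ∣ M₃) (x : FN M₁) :
    vv ℓ' h' (vv ℓ h x) = vv ℓ k' (vv ℓ' k x) := by
  apply Subtype.ext
  rw [coe_vv, coe_vv, coe_vv, coe_vv, qExpand_qExpand, qExpand_qExpand]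
  exact qExpand_congr (mul_comm _ _) _

theorem inc_JF (h : M₁ ∣ M₂) (d : ℕ) [NeZero d] (hd : d ∣ M₁) :
    inc h (JF M₁ d hd) = JF M₂ d (hd.trans h) :=
  Subtype.ext (coe_inc h _)

theorem inc_jF (h : M₁ ∣ M₂) : inc h (jF M₁) = jF M₂ := inc_JF h 1 (one_dvd M₁)

theorem vv_JF (ℓ : ℕ) [NeZero ℓ] (h : M₁ * ℓ ∣ M₂) (d : ℕ) [NeZero d] (hd : d ∣ M₁) :
    vv ℓ h (JF M₁ d hd) = JF M₂ (ℓ * d) (((mul_comm ℓ d).dvd.trans
      (mul_dvd_mul_right hd ℓ)).trans h) := by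
  apply Subtype.ext
  rw [coe_vv]
  show qExpand Kbar ℓ (Jser d) = Jser (ℓ * d)
  rw [Jser_eq_qExpand d, Jser_eq_qExpand (ℓ * d), ModularCurve.qExpand_qExpand]

theorem inc_self (x : FN M₁) : inc (dvd_refl M₁) x = x := Subtype.ext (coe_inc _ x)

theorem inc_surjective_of_eq (h : M₁ = M₂) : Function.Surjective (inc h.dvd) := by
  subst h
  exact fun x => ⟨x, inc_self x⟩

end Comp

end Fermat.Agent.S36.Norm

end
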