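/-
S36, block T4 "norm maps" (sub-architect helper96).  The two norm maps
`normAlpha N q, normBeta N q : FN (N * q) →* FN N` along the two degeneracy maps
`α : f(τ) ↦ f(τ)` and `β : f(τ) ↦ f(q τ)`.
-/
import Fermat.Agent.S36.Norm.Along
import Fermat.Agent.S36.Norm.Maps

set_option autoImplicit false

noncomputable section

namespace Fermat.Agent.S36.Norm

open ModularCurve AlgebraicCurve Fermat.Agent.S24 Fermat.Agent.GAL.E

variable (N q : ℕ) [NeZero N] [NeZero q]

/-- The norm along `β : f(τ) ↦ f(q τ)`. -/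
def normBeta : FN (N * q) →* FN N := nm (heckeBetaBar Kbar N q).toRingHom

omit [NeZero N] in
theorem normBeta_eq_nm : normBeta N q = nm (heckeBetaBar Kbar N q).toRingHom := rfl

/-- The norm along `α` (defined in `GAL/E/Defs.lean`). -/
theorem normAlpha_eq_nm : normAlpha N q = nm (heckeAlphaBar Kbar N q).toRingHom := rfl

theorem normAlpha_eq_nm_inc : normAlpha N q = nm (inc (dvd_mul_right N q)).toRingHom := by
  rw [normAlpha_eq_nm, heckeAlphaBar_eq_inc]

theorem normBeta_eq_nm_vv : normBeta N q = nm (vv q (dvd_refl (N * q))).toRingHom := by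
  rw [normBeta_eq_nm, heckeBetaBar_eq_vv]

theorem heckeF_apply (u : FN N) :
    heckeF N q u = nm (inc (dvd_mul_right N q)).toRingHom (vv q (dvd_refl (N * q)) u) := by
  rw [← normAlpha_eq_nm_inc, ← heckeBetaBar_eq_vv]
  rfl

end Fermat.Agent.S36.Norm

end
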