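/-
S36, block T4 "norm maps".  TASK S36-N4: the degrees of the inclusions `FN M ⊆ FN M'`
(from `[FN M : ℚ̄(j)] = [SL₂(ℤ) : Γ₀(M)] = ψ(M)`, S24 + Lib/Gamma0CountIndex).
-/
import Fermat.Agent.S36.Norm.Defs
import Fermat.Agent.S24.Export.Ramification
import Fermat.Agent.Lib.Gamma0CountIndex

set_option autoImplicit false

noncomputable section

namespace Fermat.Agent.S36.Norm

open ModularCurve AlgebraicCurve Fermat.Agent.S24 Fermat.Agent.GAL.E

theorem dedekindPsi_ne_zero (M : ℕ) [NeZero M] : dedekindPsi M ≠ 0 := by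
  have hM : M ≠ 0 := NeZero.ne M
  have h1 : (1 : ℕ) ∈ M.divisors.filter Squarefree := by simp [hM]
  have h2 := Finset.single_le_sum (f := fun d => M / d) (fun i _ => Nat.zero_le _) h1
  rw [dedekindPsi]
  simp only [Nat.div_one] at h2
  intro h0
  rw [h0] at h2
  exact hM (Nat.le_zero.1 h2)

/-- `dg` of an `algebraMap` is the `finrank`. -/
theorem dg_algebraMap (K L : Type*) [Field K] [Field L] [inst : Algebra K L] :
    dg (algebraMap K L) = Module.finrank K L := by
  have h : (algebraMap K L).toAlgebra = inst := Algebra.algebra_ext _ _ (fun _ => rfl)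
  unfold dg
  rw [h]

/-- `[FN M : ℚ̄(j)] = ψ(M)` -/
theorem dg_algebraMap_jF (M : ℕ) [NeZero M] :
    dg (algebraMap (IntermediateField.adjoin Kbar {jF M}) (FN M)) = dedekindPsi M := by
  rw [dg_algebraMap, Export.finrank_eq_index, Fermat.Agent.Lib.Gamma0Count.index_Gamma0 M (NeZero.ne M)]

theorem map_adjoin_jF {M M' : ℕ} [NeZero M] [NeZero M'] (h : M ∣ M') :
    (IntermediateField.adjoin Kbar {jF M}).map (inc h) = IntermediateField.adjoin Kbar {jF M'} := by
  rw [IntermediateField.adjoin_map, Set.image_singleton, inc_jF]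

/-- the restriction of `inc h` to `ℚ̄(j)` -/
def incJ {M M' : ℕ} [NeZero M] [NeZero M'] (h : M ∣ M') :
    IntermediateField.adjoin Kbar {jF M} ≃ₐ[Kbar] IntermediateField.adjoin Kbar {jF M'} :=
  ((IntermediateField.adjoin Kbar {jF M}).equivMap (inc h)).trans
    (IntermediateField.equivOfEq (map_adjoin_jF h))

theorem coe_incJ {M M' : ℕ} [NeZero M] [NeZero M'] (h : M ∣ M')
    (x : IntermediateField.adjoin Kbar {jF M}) : (incJ h x : FN M') = inc h (x : FN M) := by
  rw [incJ, AlgEquiv.trans_apply, IntermediateField.equivOfEq_apply]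
  exact IntermediateField.coe_equivMap_apply _ _ x

/-- `[FN M' : FN M] * ψ(M) = ψ(M')` -/
theorem dg_inc {M M' : ℕ} [NeZero M] [NeZero M'] (h : M ∣ M') :
    dg (inc h).toRingHom * dedekindPsi M = dedekindPsi M' := by
  have hcomm : (inc h).toRingHom.comp (algebraMap (IntermediateField.adjoin Kbar {jF M}) (FN M)) =
      (algebraMap (IntermediateField.adjoin Kbar {jF M'}) (FN M')).comp
        (incJ h : IntermediateField.adjoin Kbar {jF M} →+* IntermediateField.adjoin Kbar {jF M'}) := by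
    ext1 x
    exact (coe_incJ h x).symm
  have h1 := dg_comp (algebraMap (IntermediateField.adjoin Kbar {jF M}) (FN M)) (inc h).toRingHom
  have h2 := dg_comp
    (incJ h : IntermediateField.adjoin Kbar {jF M} →+* IntermediateField.adjoin Kbar {jF M'})
    (algebraMap (IntermediateField.adjoin Kbar {jF M'}) (FN M'))
  have h3 : dg (incJ h : IntermediateField.adjoin Kbar {jF M} →+*
      IntermediateField.adjoin Kbar {jF M'}) = 1 :=
    dg_of_surjective _ (incJ h).surjective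
  rw [hcomm, h2, h3, one_mul, dg_algebraMap_jF, dg_algebraMap_jF] at h1
  rw [mul_comm, ← h1]

theorem dg_inc_ne_zero {M M' : ℕ} [NeZero M] [NeZero M'] (h : M ∣ M') :
    dg (inc h).toRingHom ≠ 0 := by
  intro h0
  have h1 := dg_inc h
  rw [h0, zero_mul] at h1
  exact dedekindPsi_ne_zero M' h1.symm

theorem dg_inc_of_dvd {N q : ℕ} [NeZero N] [NeZero q] (hq : q.Prime) (hqN : q ∣ N) :
    dg (inc (dvd_mul_right N q)).toRingHom = q := by
  have h1 := dg_inc (dvd_mul_right N q)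
  have e1 : dedekindPsi (N * q) = q * dedekindPsi N := by
    rw [mul_comm N q, Fermat.Agent.Lib.Gamma0Count.dedekindPsi_mul_of_dvd (NeZero.ne N) hq hqN]
  rw [e1] at h1
  exact Nat.eq_of_mul_eq_mul_right (Nat.pos_of_ne_zero (dedekindPsi_ne_zero N)) h1

theorem dg_inc_of_not_dvd {N q : ℕ} [NeZero N] [NeZero q] (hq : q.Prime) (hqN : ¬ q ∣ N) :
    dg (inc (dvd_mul_right N q)).toRingHom = q + 1 := by
  have h1 := dg_inc (dvd_mul_right N q)
  have e1 : dedekindPsi (N * q) = (q + 1) * dedekindPsi N := by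
    rw [mul_comm N q, Fermat.Agent.Lib.Gamma0Count.dedekindPsi_mul_of_not_dvd (NeZero.ne N) hq hqN]
  rw [e1] at h1
  exact Nat.eq_of_mul_eq_mul_right (Nat.pos_of_ne_zero (dedekindPsi_ne_zero N)) h1

/-- the degree of `FN (N q ℓ)` over `FN (N ℓ)` equals the degree of `FN (N q)` over `FN N` -/
theorem dg_inc_mul {N q ℓ : ℕ} [NeZero N] [NeZero q] [NeZero ℓ] (hℓ : ℓ.Prime)
    (hℓN : ¬ ℓ ∣ N * q) :
    dg (inc (mul_dvd_mul_right (dvd_mul_right N q) ℓ : N * ℓ ∣ N * q * ℓ)).toRingHom =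
      dg (inc (dvd_mul_right N q)).toRingHom := by
  have hℓN' : ¬ ℓ ∣ N := fun hd => hℓN (hd.mul_right q)
  have h1 := dg_inc (mul_dvd_mul_right (dvd_mul_right N q) ℓ : N * ℓ ∣ N * q * ℓ)
  have h2 := dg_inc (dvd_mul_right N q)
  have e1 : dedekindPsi (N * ℓ) = (ℓ + 1) * dedekindPsi N := by
    rw [mul_comm N ℓ, Fermat.Agent.Lib.Gamma0Count.dedekindPsi_mul_of_not_dvd (NeZero.ne N) hℓ hℓN']
  have e2 : dedekindPsi (N * q * ℓ) = (ℓ + 1) * dedekindPsi (N * q) := by
    rw [mul_comm (N * q) ℓ,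
      Fermat.Agent.Lib.Gamma0Count.dedekindPsi_mul_of_not_dvd (NeZero.ne (N * q)) hℓ hℓN]
  rw [e1, e2, ← h2] at h1
  have hpos : 0 < (ℓ + 1) * dedekindPsi N :=
    Nat.mul_pos (Nat.succ_pos ℓ) (Nat.pos_of_ne_zero (dedekindPsi_ne_zero N))
  refine Nat.eq_of_mul_eq_mul_right hpos ?_
  rw [h1]
  ring

end Fermat.Agent.S36.Norm

end
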