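/-
S36, block T4 "norm maps".  TASK S36-N5: `FN M = ℚ̄(j(τ), j(M τ))`
(Galois correspondence for the uniformisation of S24).
-/
import Fermat.Agent.S36.Norm.Defs
import Fermat.Agent.S24.Export.Ramification

set_option autoImplicit false

noncomputable section

namespace Fermat.Agent.S36.Norm

open ModularCurve AlgebraicCurve IntermediateField Fermat.Agent.S24 Fermat.Agent.GAL.E

section Abstract

variable {K F L G : Type*} [Field K] [Field F] [Algebra K F] [Field L] [Algebra K L]
  [Group G] [MulSemiringAction G L]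

/-- there are at most `[E : k₀]` embeddings of `E` over `k₀` -/
theorem card_le_finrank_of_injective_algHom {k₀ E L' ι : Type*} [Field k₀] [Field E]
    [Algebra k₀ E] [Field L'] [Algebra k₀ L'] [FiniteDimensional k₀ E] [Fintype ι]
    (e : ι → (E →ₐ[k₀] L')) (he : Function.Injective e) :
    Fintype.card ι ≤ Module.finrank k₀ E := by
  have h1 := Fintype.card_le_of_injective e he
  have h2 := cardinalMk_algHom k₀ E L'
  have h3 : Module.finrank L' (E →ₗ[k₀] L') = Module.finrank k₀ E :=
    Module.finrank_linearMap_self k₀ L' E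
  rw [h3, Cardinal.mk_fintype] at h2
  exact h1.trans (by exact_mod_cast h2)

/-- the index of `H` is at most the degree of the subfield generated by `S` -/
theorem index_le_finrank_adjoin {x : F} {H : Subgroup G} [H.FiniteIndex]
    {Ψ : F →ₐ[K] L} (hU : IsUniformization x H Ψ) [FiniteDimensional K⟮x⟯ F] (S : Set F)
    (hS : ∀ γ : G, (∀ f ∈ S, γ • Ψ f = Ψ f) → γ ∈ H) :
    H.index ≤ Module.finrank K⟮x⟯ (IntermediateField.adjoin K⟮x⟯ S) := by
  have : Fintype (G ⧸ H) := Fintype.ofFinite _
  let _ : Algebra K⟮x⟯ L := (CL.baseHom x Ψ).toAlgebra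
  let e₀ : G ⧸ H → (F →ₐ[K⟮x⟯] L) := fun q =>
    { CL.conj hU q with commutes' := fun r => CL.conj_of_mem_adjoin hU q r.2 }
  let e : G ⧸ H → (IntermediateField.adjoin K⟮x⟯ S →ₐ[K⟮x⟯] L) := fun q =>
    (e₀ q).comp (IntermediateField.adjoin K⟮x⟯ S).val
  have he : Function.Injective e := by
    intro q q' h
    induction q using QuotientGroup.induction_on with
    | H a =>
    induction q' using QuotientGroup.induction_on with
    | H b =>
      rw [QuotientGroup.eq]
      apply hS
      intro f hf
      have h1 := congrArg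
        (fun φ : IntermediateField.adjoin K⟮x⟯ S →ₐ[K⟮x⟯] L =>
          φ ⟨f, IntermediateField.subset_adjoin _ _ hf⟩) h
      have h2 : a • Ψ f = b • Ψ f := h1
      rw [mul_smul, ← h2, inv_smul_smul]
  rw [Subgroup.index, Nat.card_eq_fintype_card]
  exact card_le_finrank_of_injective_algHom e he

/-- Abstract form: a subset `S` of `F` whose pointwise stabiliser is contained in `H` generates `F`
over `K(x)`. -/
theorem adjoin_eq_top_of_isUniformization [CharZero K] {x : F} {H : Subgroup G} [H.FiniteIndex]
    {Ψ : F →ₐ[K] L} (hU : IsUniformization x H Ψ) [FiniteDimensional K⟮x⟯ F] (S : Set F)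
    (hS : ∀ γ : G, (∀ f ∈ S, γ • Ψ f = Ψ f) → γ ∈ H) :
    IntermediateField.adjoin K⟮x⟯ S = ⊤ := by
  have h1 := index_le_finrank_adjoin hU S hS
  have h2 := CL.finrank_eq_index' hU
  refine IntermediateField.eq_of_le_of_finrank_le le_top ?_
  rw [IntermediateField.finrank_top', h2]
  exact h1

end Abstract

/-- `FN M` is generated over `ℚ̄(j)` by `j(M τ)`. -/
theorem adjoin_JF_self_eq_top (M : ℕ) [NeZero M] :
    IntermediateField.adjoin Kbar⟮jF M⟯ {JF M M dvd_rfl} = ⊤ := by
  have := Export.finiteDimensional M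
  refine adjoin_eq_top_of_isUniformization (B.isUniformization (N := M)) _ ?_
  intro γ h
  apply B.mem_Gamma0_of_smul_jd
  have h1 := h (JF M M dvd_rfl) (Set.mem_singleton _)
  rw [B.Psi_JF, B.smul_algebraMap_AL] at h1
  exact IsFractionRing.injective (AL M) (B.LN M) h1

/-- the form used in `nm_baseChange` -/
theorem subfield_eq_top (M : ℕ) [NeZero M] (E : Subfield (FN M))
    (hc : ∀ c : Kbar, algebraMap Kbar (FN M) c ∈ E) (hj : jF M ∈ E) (hJ : JF M M dvd_rfl ∈ E) :
    E = ⊤ := by
  have h1 : ∀ r : FN M, r ∈ Kbar⟮jF M⟯ → r ∈ E := by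
    intro r hr
    induction hr using IntermediateField.adjoin_induction with
    | mem y hy =>
      rw [Set.mem_singleton_iff] at hy
      subst hy
      exact hj
    | algebraMap c => exact hc c
    | add a b _ _ ha hb => exact E.add_mem ha hb
    | inv a _ ha => exact E.inv_mem ha
    | mul a b _ _ ha hb => exact E.mul_mem ha hb
  rw [eq_top_iff]
  intro f _
  have hf : f ∈ IntermediateField.adjoin Kbar⟮jF M⟯ {JF M M dvd_rfl} := by
    rw [adjoin_JF_self_eq_top]
    exact IntermediateField.mem_top
  induction hf using IntermediateField.adjoin_induction with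
  | mem y hy =>
    rw [Set.mem_singleton_iff] at hy
    subst hy
    exact hJ
  | algebraMap c => exact h1 _ c.2
  | add a b _ _ ha hb => exact E.add_mem (ha trivial) (hb trivial)
  | inv a _ ha => exact E.inv_mem (ha trivial)
  | mul a b _ _ ha hb => exact E.mul_mem (ha trivial) (hb trivial)

end Fermat.Agent.S36.Norm

end
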