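/-
S36, block T4 "norm maps".  TASK S36-N13: `FN M` is generated by `j(τ), j(a τ), j(b τ)` if
`lcm a b = M` (Galois correspondence for the uniformisation of S24).
-/
import Fermat.Agent.S36.Norm.Gen

set_option autoImplicit false

noncomputable section

namespace Fermat.Agent.S36.Norm

open ModularCurve AlgebraicCurve IntermediateField Fermat.Agent.S24 Fermat.Agent.S24.B
open Fermat.Agent.GAL.E CongruenceSubgroup
open scoped MatrixGroups

/-- the stabiliser of `j(d τ)` is `Γ₀(d)`, at any level `M` divisible by `d` -/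
theorem mem_Gamma0_of_smul_jd_dvd {M : ℕ} [NeZero M] (d : ℕ) [NeZero d] (hd : d ∣ M)
    (γ : SL(2, ℤ)) (h : γ • jd M d hd = jd M d hd) : γ ∈ Gamma0 d := by
  apply B.mem_Gamma0_of_smul_jd (N := d) γ
  apply Subtype.ext
  funext τ
  exact congrFun (congrArg Subtype.val h) τ

/-- an element fixing `Ψ (j(d τ))` lies in `Γ₀(d)` -/
theorem mem_Gamma0_of_smul_Psi_JF {M : ℕ} [NeZero M] (d : ℕ) [NeZero d] (hd : d ∣ M)
    (γ : SL(2, ℤ)) (h : γ • Psi M (JF M d hd) = Psi M (JF M d hd)) : γ ∈ Gamma0 d := by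
  apply mem_Gamma0_of_smul_jd_dvd d hd γ
  rw [B.Psi_JF, B.smul_algebraMap_AL] at h
  exact IsFractionRing.injective (AL M) (LN M) h

theorem adjoin_JF_pair_eq_top (M a b : ℕ) [NeZero M] [NeZero a] [NeZero b] (ha : a ∣ M)
    (hb : b ∣ M) (hlcm : Nat.lcm a b = M) :
    IntermediateField.adjoin Kbar⟮jF M⟯ {JF M a ha, JF M b hb} = ⊤ := by
  have := Export.finiteDimensional M
  refine adjoin_eq_top_of_isUniformization (B.isUniformization (N := M)) _ ?_
  intro γ h
  have h1 := mem_Gamma0_of_smul_Psi_JF a ha γ (h _ (Set.mem_insert _ _))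
  have h2 := mem_Gamma0_of_smul_Psi_JF b hb γ
    (h _ (Set.mem_insert_of_mem _ (Set.mem_singleton _)))
  rw [Gamma0_mem, ZMod.intCast_zmod_eq_zero_iff_dvd] at h1 h2 ⊢
  rw [← hlcm]
  rw [Int.natCast_dvd] at h1 h2 ⊢
  exact Nat.lcm_dvd h1 h2

theorem subfield_eq_top_of_lcm (M a b : ℕ) [NeZero M] [NeZero a] [NeZero b] (ha : a ∣ M)
    (hb : b ∣ M) (hlcm : Nat.lcm a b = M) (E : Subfield (FN M))
    (hc : ∀ c : Kbar, algebraMap Kbar (FN M) c ∈ E) (hj : jF M ∈ E) (hJa : JF M a ha ∈ E)
    (hJb : JF M b hb ∈ E) : E = ⊤ := by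
  have h1 : ∀ r : FN M, r ∈ Kbar⟮jF M⟯ → r ∈ E := by
    intro r hr
    induction hr using IntermediateField.adjoin_induction with
    | mem y hy =>
      rw [Set.mem_singleton_iff] at hy
      subst hy
      exact hj
    | algebraMap c => exact hc c
    | add a b _ _ ha hb => exact E.add_mem ha hb
    | inv a _ ha => exact E.inv_mem ha
    | mul a b _ _ ha hb => exact E.mul_mem ha hb
  rw [eq_top_iff]
  intro f _
  have hf : f ∈ IntermediateField.adjoin Kbar⟮jF M⟯ {JF M a ha, JF M b hb} := by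
    rw [adjoin_JF_pair_eq_top M a b ha hb hlcm]
    exact IntermediateField.mem_top
  induction hf using IntermediateField.adjoin_induction with
  | mem y hy =>
    rcases hy with rfl | hy
    · exact hJa
    · rw [Set.mem_singleton_iff] at hy
      subst hy
      exact hJb
  | algebraMap c => exact h1 _ c.2
  | add a b _ _ ha hb => exact E.add_mem (ha trivial) (hb trivial)
  | inv a _ ha => exact E.inv_mem (ha trivial)
  | mul a b _ _ ha hb => exact E.mul_mem (ha trivial) (hb trivial)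

end Fermat.Agent.S36.Norm

end
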