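/-
S36, block T4 "norm maps".  TASK S36-N14: auxiliary level, norm along `α_q`:
for `r` prime to `q` the norm `FN (r N q) → FN (r N)` restricts to the norm `FN (N q) → FN N`.
-/
import Fermat.Agent.S36.Norm.Stab
import Fermat.Agent.S36.Norm.Degree
import Fermat.Agent.S36.Norm.BaseChange

set_option autoImplicit false

noncomputable section

namespace Fermat.Agent.S36.Norm

open ModularCurve AlgebraicCurve Fermat.Agent.S24 Fermat.Agent.GAL.E

theorem normAlpha_inc (r N q : ℕ) [NeZero r] [NeZero N] [NeZero q] (hq : q.Prime) (hqN : q ∣ N)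
    (hr : Nat.Coprime r q) (h : N * q ∣ r * N * q) (h' : N ∣ r * N) (u : FN (N * q)) :
    normAlpha (r * N) q (inc h u) = inc h' (normAlpha N q u) := by
  rw [normAlpha_eq_nm_inc, normAlpha_eq_nm_inc]
  have hlcm : Nat.lcm (r * N) (N * q) = r * N * q := by
    rw [mul_comm r N, Nat.lcm_mul_left, hr.lcm_eq_mul, mul_assoc]
  refine nm_baseChange (inc (dvd_mul_right N q)).toRingHom
    (inc (dvd_mul_right (r * N) q)).toRingHom (inc h').toRingHom (inc h).toRingHom
    ?_ (dg_inc_ne_zero _) ?_ ?_ u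
  · refine RingHom.ext fun x => ?_
    show inc h (inc (dvd_mul_right N q) x) = inc (dvd_mul_right (r * N) q) (inc h' x)
    rw [inc_inc, inc_inc]
  · rw [dg_inc_of_dvd hq (hqN.mul_left r), dg_inc_of_dvd hq hqN]
  · refine subfield_eq_top_of_lcm (r * N * q) (r * N) (N * q) (dvd_mul_right _ _) h hlcm _
      ?_ ?_ ?_ ?_
    · intro c
      exact Subfield.subset_closure (Or.inl ⟨algebraMap Kbar (FN (r * N)) c,
        (inc (dvd_mul_right (r * N) q)).commutes c⟩)
    · exact Subfield.subset_closure (Or.inl ⟨jF (r * N), inc_jF _⟩)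
    · exact Subfield.subset_closure (Or.inl ⟨JF (r * N) (r * N) dvd_rfl, inc_JF _ _ _⟩)
    · exact Subfield.subset_closure (Or.inr ⟨JF (N * q) (N * q) dvd_rfl, inc_JF _ _ _⟩)

end Fermat.Agent.S36.Norm

end
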