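/-
S36, block T4 "norm maps".  TASK S36-N8: the degree of `FN M'` over `β_q (FN M)`
(Atkin-Lehner involution at level `q`, from `GAL.E.exists_embedding` with `N = 1`, `b = 0`).
-/
import Fermat.Agent.S36.Norm.Degree

set_option autoImplicit false

noncomputable section

namespace Fermat.Agent.S36.Norm

open ModularCurve AlgebraicCurve Fermat.Agent.S24 Fermat.Agent.GAL.E

/-- the generators of `FN (1 * q)` are `α j` and `β j` -/
theorem degBeta_JF_cases (q : ℕ) [NeZero q] (hq : q.Prime) (d : ℕ) [NeZero d] (hd : d ∣ 1 * q) :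
    JF (1 * q) d hd = heckeAlphaBar Kbar 1 q (jF 1) ∨
      JF (1 * q) d hd = heckeBetaBar Kbar 1 q (jF 1) := by
  have hd' : d ∣ q := by simpa using hd
  rcases (Nat.dvd_prime hq).mp hd' with h1 | h1
  · left
    subst h1
    apply Subtype.ext
    rw [coe_heckeAlphaBar]
    rfl
  · right
    subst h1
    apply Subtype.ext
    rw [coe_heckeBetaBar]
    exact B.Jser_eq_qExpand d

/-- the Atkin-Lehner involution of `FN (1 * q)` -/
theorem degBeta_exists_involution (q : ℕ) [NeZero q] (hq : q.Prime) :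
    ∃ W : FN (1 * q) →+* FN (1 * q),
      (∀ x : FN 1, W (heckeAlphaBar Kbar 1 q x) = heckeBetaBar Kbar 1 q x) ∧
      (∀ x : FN 1, W (heckeBetaBar Kbar 1 q x) = heckeAlphaBar Kbar 1 q x) := by
  obtain ⟨τ, hα, hβ⟩ := exists_embedding 1 q (Nat.coprime_one_right q) 0
  have hα' : ∀ x : FN 1, τ (heckeAlphaBar Kbar 1 q x) =
      ((heckeBetaBar Kbar 1 q x : FN (1 * q)) : LaurentSeries Kbar) := by
    intro x
    rw [hα, coe_heckeBetaBar]
    exact ModularCurve.qExpand_congr (one_mul q) _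
  have hβ' : ∀ x : FN 1, τ (heckeBetaBar Kbar 1 q x) =
      ((heckeAlphaBar Kbar 1 q x : FN (1 * q)) : LaurentSeries Kbar) := by
    intro x
    rw [hβ, coe_heckeAlphaBar, pow_zero, B.twist_one, qExpand_one_apply]
  have hmem : ∀ z : FN (1 * q), τ z ∈ modularFunctionFieldBar (1 * q) := by
    intro z
    induction z using B.FN_induction with
    | hJ d _ hd =>
      rcases degBeta_JF_cases q hq d hd with h | h
      · rw [h, hα']; exact (heckeBetaBar Kbar 1 q (jF 1)).2
      · rw [h, hβ']; exact (heckeAlphaBar Kbar 1 q (jF 1)).2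
    | hc c =>
      rw [← (heckeAlphaBar Kbar 1 q).commutes c, hα']
      exact (heckeBetaBar Kbar 1 q _).2
    | hadd f g hf hg => rw [map_add]; exact add_mem hf hg
    | hneg f hf => rw [map_neg]; exact neg_mem hf
    | hmul f g hf hg => rw [map_mul]; exact mul_mem hf hg
    | hinv f hf => rw [map_inv₀]; exact inv_mem hf
  refine ⟨τ.codRestrict (modularFunctionFieldBar (1 * q)) hmem, fun x => ?_, fun x => ?_⟩
  · exact Subtype.ext (hα' x)
  · exact Subtype.ext (hβ' x)

/-- `[ℚ̄(j(τ), j(q τ)) : ℚ̄(j(q τ))] = q + 1` -/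
theorem dg_vv_one (q : ℕ) [NeZero q] (hq : q.Prime) :
    dg (vv q (dvd_refl (1 * q))).toRingHom = q + 1 := by
  obtain ⟨W, hWα, hWβ⟩ := degBeta_exists_involution q hq
  have hWW : W.comp W = RingHom.id (FN (1 * q)) := by
    refine ringHom_ext_FN _ _ ?_ ?_
    · intro d _ hd
      rcases degBeta_JF_cases q hq d hd with h | h
      · rw [h, RingHom.comp_apply, hWα, hWβ, RingHom.id_apply]
      · rw [h, RingHom.comp_apply, hWβ, hWα, RingHom.id_apply]
    · intro c
      rw [← (heckeAlphaBar Kbar 1 q).commutes c, RingHom.comp_apply, hWα, hWβ, RingHom.id_apply]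
  have hsurj : Function.Surjective W := fun z => ⟨W z, RingHom.congr_fun hWW z⟩
  have hcomp : (heckeBetaBar Kbar 1 q).toRingHom = W.comp (heckeAlphaBar Kbar 1 q).toRingHom :=
    RingHom.ext fun x => (hWα x).symm
  rw [← heckeBetaBar_eq_vv, hcomp, dg_comp, dg_of_surjective W hsurj, mul_one,
    heckeAlphaBar_eq_inc]
  exact dg_inc_of_not_dvd hq (fun h => hq.one_lt.ne' (Nat.dvd_one.mp h))

/-- `[FN M' : β_q (FN M)] * ψ(M) = ψ(M')` -/
theorem dg_vv {M M' : ℕ} (q : ℕ) [NeZero M] [NeZero M'] [NeZero q] (hq : q.Prime)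
    (h : M * q ∣ M') : dg (vv q h).toRingHom * dedekindPsi M = dedekindPsi M' := by
  have h2 : 1 * q ∣ M' := (mul_dvd_mul_right (one_dvd M) q).trans h
  have hcomp : (vv q h).toRingHom.comp (inc (one_dvd M)).toRingHom =
      (inc h2).toRingHom.comp (vv q (dvd_refl (1 * q))).toRingHom := by
    refine RingHom.ext fun x => ?_
    show vv q h (inc (one_dvd M) x) = inc h2 (vv q (dvd_refl (1 * q)) x)
    rw [vv_inc, inc_vv]
  have e0 := congrArg dg hcomp
  rw [dg_comp, dg_comp, dg_vv_one q hq] at e0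
  have e1 := dg_inc (one_dvd M)
  have e2 := dg_inc h2
  have e3 := dg_inc (dvd_mul_right 1 q)
  rw [dg_inc_of_not_dvd hq (fun h => hq.one_lt.ne' (Nat.dvd_one.mp h))] at e3
  calc dg (vv q h).toRingHom * dedekindPsi M
      = dg (vv q h).toRingHom * (dg (inc (one_dvd M)).toRingHom * dedekindPsi 1) := by rw [e1]
    _ = (dg (inc (one_dvd M)).toRingHom * dg (vv q h).toRingHom) * dedekindPsi 1 := by ring
    _ = ((q + 1) * dg (inc h2).toRingHom) * dedekindPsi 1 := by rw [e0]
    _ = dg (inc h2).toRingHom * ((q + 1) * dedekindPsi 1) := by ring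
    _ = dedekindPsi M' := by rw [e3, e2]

theorem dg_beta_of_dvd {N q : ℕ} [NeZero N] [NeZero q] (hq : q.Prime) (hqN : q ∣ N) :
    dg (heckeBetaBar Kbar N q).toRingHom = q := by
  have e1 := dg_vv (M := N) (M' := N * q) q hq (dvd_refl (N * q))
  have e2 := dg_inc (dvd_mul_right N q)
  rw [dg_inc_of_dvd hq hqN] at e2
  rw [heckeBetaBar_eq_vv]
  exact Nat.eq_of_mul_eq_mul_right (Nat.pos_of_ne_zero (dedekindPsi_ne_zero N)) (e1.trans e2.symm)

end Fermat.Agent.S36.Norm

end
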