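/-
S36, block T4 "norm maps" (sub-architect helper96).  Mathlib only.  TASK S36-N3: norm = product over a full set of embeddings.
-/
import Fermat.Agent.S36.Norm.Along

set_option autoImplicit false

noncomputable section

namespace Fermat.Agent.S36.Norm

variable {K L M K' L' Ω : Type*} [Field K] [Field L] [Field M] [Field K'] [Field L'] [Field Ω]

/-! ### TASK S36-N3 -/

/-- Algebra form (same proof as `Fermat.Agent.GAL.E.algebraMap_norm_eq_prod`, helper106). -/
theorem algebraMap_norm_eq_prod_aux {F E Ω ι : Type*} [Field F] [Field E] [Field Ω] [Algebra F E]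
    [Algebra F Ω] [FiniteDimensional F E] [Algebra.IsSeparable F E] [Fintype ι]
    (τ : ι → E →ₐ[F] Ω) (hτ : Function.Injective τ) (hcard : Fintype.card ι = Module.finrank F E)
    (y : E) : algebraMap F Ω (Algebra.norm F y) = ∏ i, τ i y := by
  classical
  let Ωb := AlgebraicClosure Ω
  let j : Ω →ₐ[F] Ωb := IsScalarTower.toAlgHom F Ω Ωb
  have hj : Function.Injective j := (algebraMap Ω Ωb).injective
  let τ' : ι → E →ₐ[F] Ωb := fun i => j.comp (τ i)
  have hτ' : Function.Injective τ' := by
    intro a b hab
    apply hτ
    ext e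
    apply hj
    exact congrArg (fun φ : E →ₐ[F] Ωb => φ e) hab
  have hbij : Function.Bijective τ' := by
    rw [Fintype.bijective_iff_injective_and_card]
    exact ⟨hτ', by rw [hcard, AlgHom.card]⟩
  apply hj
  have h1 : j (algebraMap F Ω (Algebra.norm F y)) = algebraMap F Ωb (Algebra.norm F y) :=
    j.commutes _
  rw [h1, Algebra.norm_eq_prod_embeddings F Ωb y, map_prod]
  exact (Function.Bijective.prod_comp hbij (fun σ : E →ₐ[F] Ωb => σ y)).symm

/-- **Norm = product over a full set of embeddings.** -/
theorem nm_eq_prod [CharZero K] (f : K →+* L) (g : K →+* Ω) {ι : Type*} [Fintype ι]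
    (τ : ι → L →+* Ω) (hτ : ∀ i, (τ i).comp f = g) (hinj : Function.Injective τ)
    (hcard : Fintype.card ι = dg f) (y : L) : g (nm f y) = ∏ i, τ i y := by
  letI := f.toAlgebra
  letI := g.toAlgebra
  by_cases h0 : dg f = 0
  · have hempty : IsEmpty ι := Fintype.card_eq_zero_iff.1 (hcard.trans h0)
    have hnf : ¬ Module.Finite K L := by
      intro hfin
      have hpos : 0 < Module.finrank K L := Module.finrank_pos
      exact hpos.ne' h0
    have h1 : nm f y = 1 := Algebra.norm_eq_one_of_not_module_finite hnf y
    rw [h1, map_one, Finset.univ_eq_empty, Finset.prod_empty]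
  · have hfin : FiniteDimensional K L :=
      Module.finite_of_finrank_pos (Nat.pos_of_ne_zero h0)
    let τ' : ι → L →ₐ[K] Ω := fun i =>
      { τ i with commutes' := fun r => congrArg (fun φ : K →+* Ω => φ r) (hτ i) }
    have hτ' : Function.Injective τ' := by
      intro a b hab
      apply hinj
      ext e
      exact congrArg (fun φ : L →ₐ[K] Ω => φ e) hab
    exact algebraMap_norm_eq_prod_aux τ' hτ' hcard y

end Fermat.Agent.S36.Norm

end
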