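/-
S36, block T4 "norm maps".  TASK S36-N9: for `q ∣ N` the norm along `β_q` is the multiplicative
`U_q`-operator: `(normBeta y)(q^q) = ∏_{k < q} y(ζ_q^k q)`.
-/
import Fermat.Agent.S36.Norm.DegBeta
import Fermat.Agent.S36.Norm.Prod

set_option autoImplicit false

noncomputable section

namespace Fermat.Agent.S36.Norm

open ModularCurve AlgebraicCurve Fermat.Agent.S24 Fermat.Agent.S24.B Fermat.Agent.GAL.E

namespace BetaQExp

/-- the inclusion of `FN M` into the Laurent series. -/
def subLaurent (M : ℕ) : FN M →+* LaurentSeries Kbar :=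
  (modularFunctionFieldBar M).val.toRingHom

theorem subLaurent_apply (M : ℕ) (x : FN M) : subLaurent M x = (x : LaurentSeries Kbar) := rfl

theorem charZero_FN (M : ℕ) : CharZero (FN M) :=
  charZero_of_injective_algebraMap (algebraMap Kbar (FN M)).injective

end BetaQExp

open BetaQExp

theorem qExpand_normBeta (N q : ℕ) [NeZero N] [NeZero q] (hq : q.Prime) (hqN : q ∣ N)
    (y : FN (N * q)) :
    qExpand Kbar q ((normBeta N q y : FN N) : LaurentSeries Kbar) =
      ∏ k ∈ Finset.range q, twist (zetaK q ^ k) (y : LaurentSeries Kbar) := by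
  have := charZero_FN N
  have hζ := isPrimitiveRoot_zetaK q
  have hτ : ∀ k : Fin q, ((twist (zetaK q ^ (k : ℕ))).comp (subLaurent (N * q))).comp
      (heckeBetaBar Kbar N q).toRingHom = (qExpand Kbar q).comp (subLaurent N) := by
    intro k
    refine RingHom.ext fun x => ?_
    show twist (zetaK q ^ (k : ℕ)) ((heckeBetaBar Kbar N q x : FN (N * q)) : LaurentSeries Kbar) =
      qExpand Kbar q (x : LaurentSeries Kbar)
    rw [coe_heckeBetaBar, HeckeComm.twist_qExpand, ← pow_mul, mul_comm, pow_mul, hζ.pow_eq_one,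
      one_pow, twist_one]
  have hinj : Function.Injective fun k : Fin q =>
      (twist (zetaK q ^ (k : ℕ))).comp (subLaurent (N * q)) := by
    intro k k' hkk
    have h1 := congrArg (fun φ : FN (N * q) →+* LaurentSeries Kbar =>
      (φ (jF (N * q))).coeff (-1)) hkk
    have h2 : ∀ k : Fin q, (((twist (zetaK q ^ (k : ℕ))).comp (subLaurent (N * q)))
        (jF (N * q))).coeff (-1) = (((zetaK q ^ (k : ℕ)) ^ (-1 : ℤ) : Kbarˣ) : Kbar) := by
      intro k
      show (twist (zetaK q ^ (k : ℕ)) (Jser 1)).coeff (-1) = _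
      rw [twist_coeff, Jser_one_coeff_neg_one, mul_one]
    simp only [h2] at h1
    have h3 : zetaK q ^ (k : ℕ) = zetaK q ^ (k' : ℕ) := by
      have := Units.ext h1
      simpa using this
    exact Fin.ext (hζ.pow_inj k.2 k'.2 h3)
  have hcard : Fintype.card (Fin q) = dg (heckeBetaBar Kbar N q).toRingHom := by
    rw [Fintype.card_fin, dg_beta_of_dvd hq hqN]
  have hmain := nm_eq_prod (heckeBetaBar Kbar N q).toRingHom
    ((qExpand Kbar q).comp (subLaurent N))
    (fun k : Fin q => (twist (zetaK q ^ (k : ℕ))).comp (subLaurent (N * q))) hτ hinj hcard y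
  rw [← Fin.prod_univ_eq_prod_range (fun k => twist (zetaK q ^ k) (y : LaurentSeries Kbar)) q]
  exact hmain

end Fermat.Agent.S36.Norm

end
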