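/-
S36, block T4 "norm maps".  TASK S36-N15: auxiliary level: norm along `β_q`, descent of `n`-th
powers, Kummer elements and the Galois action under the inclusions `FN M ⊆ FN M'`.
-/
import Fermat.Agent.S36.Norm.BetaQExp
import Fermat.Agent.GAL.E.KumHecke

set_option autoImplicit false

noncomputable section

namespace Fermat.Agent.S36.Norm

open ModularCurve AlgebraicCurve Fermat.Agent.S24 Fermat.Agent.GAL.E

theorem normBeta_inc (r N q : ℕ) [NeZero r] [NeZero N] [NeZero q] (hq : q.Prime) (hqN : q ∣ N)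
    (h : N * q ∣ r * N * q) (h' : N ∣ r * N) (u : FN (N * q)) :
    normBeta (r * N) q (inc h u) = inc h' (normBeta N q u) := by
  refine Subtype.ext (qExpand_injective' q ?_)
  rw [coe_inc, qExpand_normBeta (r * N) q hq (hqN.mul_left r), qExpand_normBeta N q hq hqN,
    coe_inc]

/-- `Norm (f x) = x ^ degree` -/
theorem nm_map {K L : Type*} [Field K] [Field L] (f : K →+* L) (x : K) :
    nm f (f x) = x ^ dg f := by
  letI := f.toAlgebra
  exact Algebra.norm_algebraMap x

/-- if `u ^ c` becomes an `n`-th power at level `M'` then `u ^ (c * [FN M' : FN M])` is an `n`-th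
power at level `M` -/
theorem exists_pow_eq_of_inc {M M' : ℕ} [NeZero M] [NeZero M'] (h : M ∣ M') (u : FN M) (c n : ℕ)
    (w : FN M') (hw : inc h u ^ c = w ^ n) :
    ∃ w' : FN M, u ^ (c * dg (inc h).toRingHom) = w' ^ n := by
  refine ⟨nm (inc h).toRingHom w, ?_⟩
  have h1 := congrArg (nm (inc h).toRingHom) hw
  rw [map_pow, map_pow] at h1
  have h2 : nm (inc h).toRingHom (inc h u) = u ^ dg (inc h).toRingHom :=
    nm_map (inc h).toRingHom u
  rw [h2, ← pow_mul, mul_comm] at h1
  exact h1

theorem isKum_inc {M M' n : ℕ} [NeZero M] [NeZero M'] (h : M ∣ M') {u : FN M}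
    (hu : IsKum M n u) : IsKum M' n (inc h u) := by
  intro w
  have hint : (inc h).toRingHom.IsIntegral :=
    Fermat.Agent.S37.HeckeInputs.isIntegral_of_finiteAlong _
      (Fermat.Agent.S37.HeckeInputs.finiteAlong (inc h) (jF M) (Formal.transcendental_jF M))
  rw [Place.ord_restrictAlong (inc h) hint w u]
  exact Dvd.dvd.mul_left (hu _) _

theorem galF_inc {M M' : ℕ} [NeZero M] [NeZero M'] (h : M ∣ M') (σ : GQ) (u : FN M) :
    galF M' σ (inc h u) = inc h (galF M σ u) := by
  apply Subtype.ext
  rw [coe_galF, coe_inc, coe_inc, coe_galF]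

end Fermat.Agent.S36.Norm

end
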