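/-
S36, block T4 "norm maps" (helper96).  Compatibility of the two norms with the auxiliary level, in
the shape `AuxNorm` consumed by the bridge `BAD/Bridge` (helper225).
-/
import Fermat.Agent.S36.Norm.AuxAlpha
import Fermat.Agent.S36.Norm.AuxBeta
import Fermat.Agent.BAD.Bridge.Defs
import Fermat.Agent.GAL.KLLevel

set_option autoImplicit false

noncomputable section

namespace Fermat.Agent.S36.Norm

open ModularCurve AlgebraicCurve Fermat.Agent.S24 Fermat.Agent.GAL Fermat.Agent.GAL.E
open Fermat.Agent.BAD.Bridge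

theorem levelIncl_eq_inc {M M' : ℕ} [NeZero M] [NeZero M'] (h : M ∣ M') :
    levelIncl h = inc h :=
  AlgHom.ext fun x => Subtype.ext (by rw [coe_levelIncl, coe_inc])

theorem normAlpha_inc_of_eq (r N q N' : ℕ) [NeZero r] [NeZero N] [NeZero q] [NeZero N']
    (hN' : N' = r * N) (hq : q.Prime) (hqN : q ∣ N) (hr : Nat.Coprime r q) (h : N * q ∣ N' * q)
    (h' : N ∣ N') (u : FN (N * q)) :
    normAlpha N' q (inc h u) = inc h' (normAlpha N q u) := by
  subst hN'
  exact normAlpha_inc r N q hq hqN hr h h' u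

theorem normBeta_inc_of_eq (r N q N' : ℕ) [NeZero r] [NeZero N] [NeZero q] [NeZero N']
    (hN' : N' = r * N) (hq : q.Prime) (hqN : q ∣ N) (h : N * q ∣ N' * q)
    (h' : N ∣ N') (u : FN (N * q)) :
    normBeta N' q (inc h u) = inc h' (normBeta N q u) := by
  subst hN'
  exact normBeta_inc r N q hq hqN h h' u

/-- The statement `Fermat.Agent.BAD.Bridge.AuxNorm`. -/
theorem auxNorm (q N a : ℕ) [NeZero q] [NeZero N] [NeZero a] (hq : q.Prime) (hqN : q ∣ N)
    (ha : Nat.Coprime a q) (u : FN (N * q)) :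
    normAlphaK Kbar (N * a) q (levelIncl (Nat.mul_dvd_mul_right (Nat.dvd_mul_right N a) q) u) =
        levelIncl (Nat.dvd_mul_right N a) (normAlphaK Kbar N q u) ∧
      normBetaK Kbar (N * a) q (levelIncl (Nat.mul_dvd_mul_right (Nat.dvd_mul_right N a) q) u) =
        levelIncl (Nat.dvd_mul_right N a) (normBetaK Kbar N q u) := by
  rw [levelIncl_eq_inc, levelIncl_eq_inc]
  exact ⟨normAlpha_inc_of_eq a N q (N * a) (mul_comm N a) hq hqN ha _ _ u,
    normBeta_inc_of_eq a N q (N * a) (mul_comm N a) hq hqN _ _ u⟩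

end Fermat.Agent.S36.Norm

end
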