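/-
S36, block T4 "norm maps".  TASK S36-N6: base change of the norm of `FN (N q) / FN N` along `β_ℓ`.
-/
import Fermat.Agent.S36.Norm.Degree
import Fermat.Agent.S36.Norm.Gen
import Fermat.Agent.S36.Norm.BaseChange

set_option autoImplicit false

noncomputable section

namespace Fermat.Agent.S36.Norm

open ModularCurve AlgebraicCurve Fermat.Agent.S24 Fermat.Agent.GAL.E

theorem JF_congr {M d d' : ℕ} [NeZero M] [NeZero d] [NeZero d'] (h : d = d') (hd : d ∣ M)
    (hd' : d' ∣ M) : JF M d hd = JF M d' hd' := by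
  subst h
  rfl

variable (N q ℓ : ℕ) [NeZero N] [NeZero q] [NeZero ℓ]

/-- TASK S36-N6.  Base change of the norm of `FN (N q) / FN N` along `β_ℓ`. -/
theorem nm_inc_vv (hℓ : ℓ.Prime) (hℓN : ¬ ℓ ∣ N * q) (y : FN (N * q)) :
    nm (inc (mul_dvd_mul_right (dvd_mul_right N q) ℓ : N * ℓ ∣ N * q * ℓ)).toRingHom
        (vv ℓ (dvd_refl (N * q * ℓ)) y) =
      vv ℓ (dvd_refl (N * ℓ)) (nm (inc (dvd_mul_right N q)).toRingHom y) := by
  refine nm_baseChange (inc (dvd_mul_right N q)).toRingHom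
    (inc (mul_dvd_mul_right (dvd_mul_right N q) ℓ : N * ℓ ∣ N * q * ℓ)).toRingHom
    (vv ℓ (dvd_refl (N * ℓ))).toRingHom (vv ℓ (dvd_refl (N * q * ℓ))).toRingHom ?_
    (dg_inc_ne_zero _) (dg_inc_mul hℓ hℓN) ?_ y
  · refine RingHom.ext fun x => ?_
    show vv ℓ (dvd_refl (N * q * ℓ)) (inc (dvd_mul_right N q) x) =
      inc (mul_dvd_mul_right (dvd_mul_right N q) ℓ : N * ℓ ∣ N * q * ℓ)
        (vv ℓ (dvd_refl (N * ℓ)) x)
    rw [vv_inc, inc_vv]
  · apply subfield_eq_top (N * q * ℓ)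
    · intro c
      refine Subfield.subset_closure (Or.inl ⟨algebraMap Kbar (FN (N * ℓ)) c, ?_⟩)
      exact (inc (mul_dvd_mul_right (dvd_mul_right N q) ℓ : N * ℓ ∣ N * q * ℓ)).commutes c
    · refine Subfield.subset_closure (Or.inl ⟨jF (N * ℓ), ?_⟩)
      exact inc_jF _
    · refine Subfield.subset_closure (Or.inr ⟨JF (N * q) (N * q) dvd_rfl, ?_⟩)
      show vv ℓ (dvd_refl (N * q * ℓ)) (JF (N * q) (N * q) dvd_rfl) = _
      rw [vv_JF]
      exact JF_congr (mul_comm _ _) _ _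

end Fermat.Agent.S36.Norm

end
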