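/-
S36, block T4 "norm maps".  TASK S36-N7: the norm along `α_q` commutes with the
multiplicative Hecke operator `heckeF · ℓ = Norm_{α_ℓ} ∘ β_ℓ`, `ℓ ∤ N q`.
-/
import Fermat.Agent.S36.Norm.BCAlpha

set_option autoImplicit false

noncomputable section

namespace Fermat.Agent.S36.Norm

open ModularCurve AlgebraicCurve Fermat.Agent.S24 Fermat.Agent.GAL.E

variable (N q ℓ : ℕ) [NeZero N] [NeZero q] [NeZero ℓ]

/-- the two towers `FN N ⊆ FN (N q) ⊆ FN (N q ℓ)` and `FN N ⊆ FN (N ℓ) ⊆ FN (N q ℓ)` have the same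
composite -/
theorem inc_comp_inc_eq :
    (inc (dvd_mul_right (N * q) ℓ)).toRingHom.comp (inc (dvd_mul_right N q)).toRingHom =
      (inc (mul_dvd_mul_right (dvd_mul_right N q) ℓ : N * ℓ ∣ N * q * ℓ)).toRingHom.comp
        (inc (dvd_mul_right N ℓ)).toRingHom := by
  refine RingHom.ext fun x => ?_
  show inc (dvd_mul_right (N * q) ℓ) (inc (dvd_mul_right N q) x) =
    inc (mul_dvd_mul_right (dvd_mul_right N q) ℓ : N * ℓ ∣ N * q * ℓ) (inc (dvd_mul_right N ℓ) x)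
  rw [inc_inc, inc_inc]

/-- TASK S36-N7. -/
theorem normAlpha_heckeF (hℓ : ℓ.Prime) (hℓN : ¬ ℓ ∣ N * q) (y : FN (N * q)) :
    normAlpha N q (heckeF (N * q) ℓ y) = heckeF N ℓ (normAlpha N q y) := by
  rw [normAlpha_eq_nm_inc, heckeF_apply, heckeF_apply, ← nm_comp, inc_comp_inc_eq, nm_comp,
    nm_inc_vv N q ℓ hℓ hℓN]

end Fermat.Agent.S36.Norm

end
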