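/-
S36, block T4 "norm maps".  TASK S36-N10: for `q ∣ N` the norm along `β_q` commutes with the
multiplicative Hecke operators `T_ℓ`, `ℓ ≠ q` (formal, from the `q`-expansion formulas).
-/
import Fermat.Agent.S36.Norm.BetaQExp
import Fermat.Agent.GAL.E.HeckeComm

set_option autoImplicit false

noncomputable section

namespace Fermat.Agent.S36.Norm

open ModularCurve AlgebraicCurve Fermat.Agent.S24 Fermat.Agent.S24.B Fermat.Agent.GAL.E

open HeckeComm in
/-- formal core -/
theorem comm_formal {C : Type*} [Field C] {q ℓ : ℕ} [NeZero q] [NeZero ℓ] (hc : Nat.Coprime ℓ q)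
    (z z' : Cˣ) (hz : z ^ ℓ = 1) (hz' : z' ^ q = 1) (y ty ny tny nty : LaurentSeries C)
    (h1 : qExpand C ℓ ty = qExpand C (ℓ * ℓ) y * ∏ b ∈ Finset.range ℓ, twist (z ^ b) y)
    (h2 : qExpand C q ny = ∏ k ∈ Finset.range q, twist (z' ^ k) y)
    (h3 : qExpand C ℓ tny = qExpand C (ℓ * ℓ) ny * ∏ b ∈ Finset.range ℓ, twist (z ^ b) ny)
    (h4 : qExpand C q nty = ∏ k ∈ Finset.range q, twist (z' ^ k) ty) : nty = tny := by
  apply qExpand_injective' (R := C) q
  apply qExpand_injective' (R := C) ℓ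
  have hL : qExpand C ℓ (qExpand C q nty) =
      (∏ k ∈ Finset.range q, twist (z' ^ k) (qExpand C (ℓ * ℓ) y)) *
        ∏ k ∈ Finset.range q, ∏ b ∈ Finset.range ℓ, twist (z' ^ k * z ^ b) y := by
    rw [h4, map_prod, ← prod_twist_qExpand hc z' hz' ty, ← Finset.prod_mul_distrib]
    refine Finset.prod_congr rfl fun k _ => ?_
    rw [h1, map_mul, map_prod]
    congr 1
    exact Finset.prod_congr rfl fun b _ => twist_twist _ _ _
  have hR : qExpand C ℓ (qExpand C q tny) =
      (∏ k ∈ Finset.range q, qExpand C (ℓ * ℓ) (twist (z' ^ k) y)) *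
        ∏ b ∈ Finset.range ℓ, ∏ k ∈ Finset.range q, twist (z ^ b * z' ^ k) y := by
    rw [qExpand_comm ℓ q, h3, map_mul, qExpand_comm q (ℓ * ℓ), h2, map_prod, map_prod,
      ← prod_twist_qExpand hc.symm z hz ny]
    congr 1
    refine Finset.prod_congr rfl fun b _ => ?_
    rw [h2, map_prod]
    exact Finset.prod_congr rfl fun k _ => twist_twist _ _ _
  rw [hL, hR, prod_twist_qExpand (Nat.Coprime.mul_left hc hc) z' hz', Finset.prod_comm]
  congr 1
  refine Finset.prod_congr rfl fun b _ => Finset.prod_congr rfl fun k _ => ?_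
  rw [mul_comm]

theorem normBeta_T (N q ℓ : ℕ) [NeZero N] [NeZero q] [NeZero ℓ] (hq : q.Prime) (hqN : q ∣ N)
    (hc : Nat.Coprime ℓ q) (H : HeckeOp N ℓ) (H' : HeckeOp (N * q) ℓ) (y : FN (N * q)) :
    normBeta N q (H'.T y) = H.T (normBeta N q y) := by
  apply Subtype.ext
  exact comm_formal hc (zetaK ℓ) (zetaK q) (isPrimitiveRoot_zetaK ℓ).pow_eq_one
    (isPrimitiveRoot_zetaK q).pow_eq_one (y : LaurentSeries Kbar) _ _ _ _
    (H'.qExpand_T y) (qExpand_normBeta N q hq hqN y) (H.qExpand_T (normBeta N q y))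
    (qExpand_normBeta N q hq hqN (H'.T y))

end Fermat.Agent.S36.Norm

end
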