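/-
S36, block T4 "norm maps" (sub-architect helper96).  TASK S36-N11: the norms preserve Kummer
elements; the two norm maps `N1, N2 : W (N * q) n →+ W N n` on the Kummer models.
-/
import Fermat.Agent.S36.Norm.Defs
import Fermat.Agent.GAL.E.KumHecke

set_option autoImplicit false

noncomputable section

namespace Fermat.Agent.S36.Norm

open ModularCurve AlgebraicCurve Fermat.Agent.S24 Fermat.Agent.S24.B Fermat.Agent.GAL.E

/-! ### TASK S36-N11 : norms preserve Kummer elements, maps on the Kummer models -/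

theorem isKum_normAlpha {N n : ℕ} (q : ℕ) [NeZero N] [NeZero q] {y : FN (N * q)}
    (hy : IsKum (N * q) n y) : IsKum N n (normAlpha N q y) := by
  intro v
  let _ := algAlpha N q
  have h1 : IsScalarTower Kbar (FN N) (FN (N * q)) := isScalarTower_along (heckeAlphaBar Kbar N q)
  have h2 : Module.Finite (FN N) (FN (N * q)) := Fermat.Agent.S37.HeckeInputs.alpha_finite N q
  exact dvd_ord_norm (K := Kbar) (F := FN N) (F' := FN (N * q)) (n : ℤ) y hy v

theorem isKum_normBeta {N n : ℕ} (q : ℕ) [NeZero N] [NeZero q] {y : FN (N * q)}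
    (hy : IsKum (N * q) n y) : IsKum N n (normBeta N q y) := by
  intro v
  let _ : Algebra (FN N) (FN (N * q)) := algebraAlong (heckeBetaBar Kbar N q)
  have h1 : IsScalarTower Kbar (FN N) (FN (N * q)) := isScalarTower_along (heckeBetaBar Kbar N q)
  have h2 : Module.Finite (FN N) (FN (N * q)) := Fermat.Agent.S37.HeckeInputs.beta_finite N q
  exact dvd_ord_norm (K := Kbar) (F := FN N) (F' := FN (N * q)) (n : ℤ) y hy v

/-- A homomorphism of unit groups preserving Kummer units induces a homomorphism of Kummer models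
(two-level version of `GAL.E.mapW`). -/
def mapW₂ {M N n : ℕ} (f : (FN M)ˣ →* (FN N)ˣ) (hf : ∀ u ∈ kum M n, f u ∈ kum N n) :
    W M n →+ W N n :=
  MonoidHom.toAdditive <|
    QuotientGroup.map _ _ ((f.comp (kum M n).subtype).codRestrict (kum N n) fun u => hf u u.2) (by
      rintro ⟨u, hu⟩ ⟨w, hw⟩
      refine ⟨f w, ?_⟩
      show f w ^ n = f u
      rw [← map_pow]
      exact congrArg f hw)

theorem mapW₂_cls {M N n : ℕ} (f : (FN M)ˣ →* (FN N)ˣ) (hf : ∀ u ∈ kum M n, f u ∈ kum N n)
    (u : kum M n) : mapW₂ f hf (cls u) = cls ⟨f u, hf u u.2⟩ := rfl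

variable (N n q : ℕ) [NeZero N] [NeZero q]

/-- The norm along `α_q` on the Kummer models. -/
def N1 : W (N * q) n →+ W N n :=
  mapW₂ (Units.map (normAlpha N q)) fun _ hu => isKum_normAlpha q hu

/-- The norm along `β_q` on the Kummer models. -/
def N2 : W (N * q) n →+ W N n :=
  mapW₂ (Units.map (normBeta N q)) fun _ hu => isKum_normBeta q hu

theorem N1_cls (u : kum (N * q) n) :
    N1 N n q (cls u) = cls ⟨Units.map (normAlpha N q) u, isKum_normAlpha q u.2⟩ := rfl

theorem N2_cls (u : kum (N * q) n) :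
    N2 N n q (cls u) = cls ⟨Units.map (normBeta N q) u, isKum_normBeta q u.2⟩ := rfl

/-- `N1 (cls u) = 0` iff `normAlpha u` is an `n`-th power -/
theorem N1_cls_eq_zero_iff (u : kum (N * q) n) :
    N1 N n q (cls u) = 0 ↔ ∃ w : FN N, normAlpha N q ((u : (FN (N * q))ˣ) : FN (N * q)) = w ^ n := by
  rw [N1_cls, cls_eq_zero_iff]
  constructor
  · rintro ⟨w, hw⟩
    refine ⟨(w : FN N), ?_⟩
    have h := congrArg (fun x : (FN N)ˣ => (x : FN N)) hw
    simp only [powMonoidHom_apply, Units.val_pow_eq_pow_val, Units.coe_map] at h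
    exact h.symm
  · rintro ⟨w, hw⟩
    exact mem_pows_of_eq_pow (w := w) (by rw [Units.coe_map]; exact hw)

theorem N2_cls_eq_zero_iff (u : kum (N * q) n) :
    N2 N n q (cls u) = 0 ↔ ∃ w : FN N, normBeta N q ((u : (FN (N * q))ˣ) : FN (N * q)) = w ^ n := by
  rw [N2_cls, cls_eq_zero_iff]
  constructor
  · rintro ⟨w, hw⟩
    refine ⟨(w : FN N), ?_⟩
    have h := congrArg (fun x : (FN N)ˣ => (x : FN N)) hw
    simp only [powMonoidHom_apply, Units.val_pow_eq_pow_val, Units.coe_map] at h
    exact h.symm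
  · rintro ⟨w, hw⟩
    exact mem_pows_of_eq_pow (w := w) (by rw [Units.coe_map]; exact hw)

end Fermat.Agent.S36.Norm

end
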