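/-
S36, block T4 "norm maps" (sub-architect helper96).  DELIVERABLES: the two norm maps
`N1, N2 : W (N * q) n →+ W N n` on the Kummer models and their Hecke equivariance.
-/
import Fermat.Agent.S36.Norm.CommAlpha
import Fermat.Agent.S36.Norm.CommBeta
import Fermat.Agent.S36.Norm.Kum

set_option autoImplicit false

noncomputable section

namespace Fermat.Agent.S36.Norm

open ModularCurve AlgebraicCurve Fermat.Agent.S24 Fermat.Agent.S24.B Fermat.Agent.GAL.E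

/-! ### TASK S36-N12 : Hecke equivariance -/

/-- The statement of node E6 of `GAL/E` (`qExpand_heckeF`, file `GAL/E/QExp.lean`). -/
def QExpHeckeF (M ℓ : ℕ) [NeZero M] [NeZero ℓ] : Prop :=
  ∀ u : FN M, qExpand Kbar ℓ ((heckeF M ℓ u : FN M) : LaurentSeries Kbar) =
    qExpand Kbar (ℓ * ℓ) (u : LaurentSeries Kbar) *
      ∏ b ∈ Finset.range ℓ, twist (zetaK ℓ ^ b) (u : LaurentSeries Kbar)

theorem HeckeOp_T_eq_heckeF {M ℓ : ℕ} [NeZero M] [NeZero ℓ] (h : QExpHeckeF M ℓ)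
    (H : HeckeOp M ℓ) : H.T = heckeF M ℓ := by
  refine MonoidHom.ext fun u => Subtype.ext (qExpand_injective' ℓ ?_)
  rw [H.qExpand_T, h]

variable {N n q : ℕ} [NeZero N] [NeZero q]

theorem N1_TW {ℓ : ℕ} [NeZero ℓ] (hℓ : ℓ.Prime) (hℓN : ¬ ℓ ∣ N * q)
    (h6 : QExpHeckeF N ℓ) (h6' : QExpHeckeF (N * q) ℓ)
    (H : HeckeOp N ℓ) (H' : HeckeOp (N * q) ℓ) (x : W (N * q) n) :
    N1 N n q (H'.TW n x) = H.TW n (N1 N n q x) := by
  obtain ⟨u, rfl⟩ := cls_surjective x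
  rw [HeckeOp.TW_cls, N1_cls, N1_cls, HeckeOp.TW_cls]
  refine congrArg cls (Subtype.ext (Units.ext ?_))
  show normAlpha N q (H'.T ((u : (FN (N * q))ˣ) : FN (N * q))) =
    H.T (normAlpha N q ((u : (FN (N * q))ˣ) : FN (N * q)))
  rw [HeckeOp_T_eq_heckeF h6 H, HeckeOp_T_eq_heckeF h6' H']
  exact normAlpha_heckeF N q ℓ hℓ hℓN _

theorem N2_TW {ℓ : ℕ} [NeZero ℓ] (hq : q.Prime) (hqN : q ∣ N) (hℓ : ℓ.Prime) (hℓN : ¬ ℓ ∣ N * q)
    (H : HeckeOp N ℓ) (H' : HeckeOp (N * q) ℓ) (x : W (N * q) n) :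
    N2 N n q (H'.TW n x) = H.TW n (N2 N n q x) := by
  obtain ⟨u, rfl⟩ := cls_surjective x
  rw [HeckeOp.TW_cls, N2_cls, N2_cls, HeckeOp.TW_cls]
  refine congrArg cls (Subtype.ext (Units.ext ?_))
  show normBeta N q (H'.T ((u : (FN (N * q))ˣ) : FN (N * q))) =
    H.T (normBeta N q ((u : (FN (N * q))ˣ) : FN (N * q)))
  exact normBeta_T N q ℓ hq hqN
    ((Nat.Prime.coprime_iff_not_dvd hℓ).2 fun h => hℓN (h.mul_left N)) H H' _

end Fermat.Agent.S36.Norm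

end
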