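/-
S36, block T4 "norm maps" (helper96).  Node G8 of the top of S36: the structure `OldData`.
-/
import Fermat.Agent.S36.Defs
import Fermat.Agent.S36.Norm.Main
import Fermat.Agent.GAL.E.QExp

set_option autoImplicit false

noncomputable section

namespace Fermat.Agent.S36

open Fermat.Agent.GAL Fermat.Agent.S30 Fermat.Agent.S24 ModularCurve

theorem normBeta_eq (N q : ℕ) [NeZero N] [NeZero q] : normBeta N q = Norm.normBeta N q := rfl

/-- node G8, with the product formula E6 (`GAL/E/QExp.lean`) as a hypothesis -/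
theorem nonempty_oldData_of_qExp
    (h6 : ∀ (M ℓ : ℕ) [NeZero M] [NeZero ℓ], ℓ.Prime → ¬ ℓ ∣ M → Norm.QExpHeckeF M ℓ)
    (hKL : KLStatement) (hH : HeckeOpStatement) (hMu : MultStatement)
    (q : ℕ) [NeZero q] (N : ℕ) [NeZero N] (hq : q.Prime) (hqN : q ∣ N) (c₀ : ℕ)
    (hB : ∀ A : ValuationSubring (AlgebraicClosure ℚ), A.LiesOverPrime q →
      ∀ n : ℕ, ¬ q ∣ n → ∀ u : E.kum (N * q) n,
        (∀ σ ∈ A.inertiaSubgroupIn ℚ, E.rho (N * q) n σ (E.cls u) = E.cls u) →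
        (∃ v : FN N, E.normAlpha N q ((u : (FN (N * q))ˣ) : FN (N * q)) = v ^ n) →
        (∃ v : FN N, normBeta N q ((u : (FN (N * q))ˣ) : FN (N * q)) = v ^ n) →
        c₀ • E.cls u = 0)
    (n : ℕ) (hn : 0 < n) (hqn : ¬ q ∣ n) :
    Nonempty (OldData N q n c₀ (concreteLayer hKL hH hMu (N * q) n hn)) := by
  refine ⟨{ D' := concreteLayer hKL hH hMu N n hn
            N₁ := Norm.N1 N n q
            N₂ := Norm.N2 N n q
            N₁_TT := ?_
            N₂_TT := ?_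
            bprime := ?_ }⟩
  · intro ℓ hℓ hℓM hℓM' x
    have : NeZero ℓ := ⟨hℓ.ne_zero⟩
    exact Norm.N1_TW hℓ hℓM (h6 N ℓ hℓ hℓM') (h6 (N * q) ℓ hℓ hℓM) _ _ x
  · intro ℓ hℓ hℓM hℓM' x
    have : NeZero ℓ := ⟨hℓ.ne_zero⟩
    exact Norm.N2_TW hq hqN hℓ hℓM _ _ x
  · intro A hA x hx h1 h2
    obtain ⟨u, rfl⟩ := E.cls_surjective x
    exact hB A hA n hqn u hx ((Norm.N1_cls_eq_zero_iff N n q u).1 h1)
      ((Norm.N2_cls_eq_zero_iff N n q u).1 h2)

/-- **Node G8** of the top of S36. -/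
theorem nonempty_oldData (hKL : KLStatement) (hH : HeckeOpStatement) (hMu : MultStatement)
    (q : ℕ) [NeZero q] (N : ℕ) [NeZero N] (hq : q.Prime) (hqN : q ∣ N) (c₀ : ℕ)
    (hB : ∀ A : ValuationSubring (AlgebraicClosure ℚ), A.LiesOverPrime q →
      ∀ n : ℕ, ¬ q ∣ n → ∀ u : E.kum (N * q) n,
        (∀ σ ∈ A.inertiaSubgroupIn ℚ, E.rho (N * q) n σ (E.cls u) = E.cls u) →
        (∃ v : FN N, E.normAlpha N q ((u : (FN (N * q))ˣ) : FN (N * q)) = v ^ n) →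
        (∃ v : FN N, normBeta N q ((u : (FN (N * q))ˣ) : FN (N * q)) = v ^ n) →
        c₀ • E.cls u = 0)
    (n : ℕ) (hn : 0 < n) (hqn : ¬ q ∣ n) :
    Nonempty (OldData N q n c₀ (concreteLayer hKL hH hMu (N * q) n hn)) :=
  nonempty_oldData_of_qExp (fun M ℓ _ _ hℓ hℓM => E.qExpand_heckeF M ℓ hℓ hℓM)
    hKL hH hMu q N hq hqN c₀ hB n hn hqn

end Fermat.Agent.S36

end
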